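/-
S41 / (P6) abstract half (volunteer leaf, helper47; literal interface of helper40 #2814).
Mathlib only.

* `exists_ne_zero_forall_mul_eq_zero`: in an Artinian commutative ring every proper ideal has a
  nonzero annihilator (socle lemma).
* `exists_eigen_mod_p`: `L` a module over a commutative ring `R`, finitely generated as an abelian
  group; `ev : R → K` a ring hom to a field with `p = 0` in `K` which vanishes on the elements of
  `R` killing `L`.  Then there is `v ∈ L`, `v ∉ pL`, such that `r • v ∈ pL` for all `r ∈ ker ev`.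
* `exists_eigen_mod_p'`: the same without the (unused) torsion-freeness hypothesis.
-/
import Mathlib

set_option autoImplicit false

namespace Fermat.Agent.S41.P6.SocleLemma

open Pointwise

/-- **Socle lemma.** In an Artinian commutative ring every proper ideal is killed by a nonzero
element. -/
theorem exists_ne_zero_forall_mul_eq_zero {B : Type*} [CommRing B] [IsArtinianRing B]
    (J : Ideal B) (hJ : J ≠ ⊤) : ∃ b : B, b ≠ 0 ∧ ∀ x ∈ J, x * b = 0 := by
  obtain ⟨M, hM, hJM⟩ := Ideal.exists_le_maximal J hJ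
  have hMprime : M.IsPrime := hM.isPrime
  have hann : Module.annihilator B B = ⊥ := by
    rw [eq_bot_iff]
    intro x hx
    have h1 := Module.mem_annihilator.mp hx (1 : B)
    rw [smul_eq_mul, mul_one] at h1
    rw [h1]; exact Ideal.zero_mem _
  have hmin : M ∈ (Module.annihilator B B).minimalPrimes := by
    rw [hann]
    refine ⟨⟨hMprime, bot_le⟩, ?_⟩
    rintro q ⟨hq, -⟩ hqM
    have hqmax : q.IsMaximal := IsArtinianRing.isMaximal_of_isPrime q
    exact (hqmax.eq_of_le hM.ne_top hqM).ge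
  have hass : IsAssociatedPrime M B :=
    Module.associatedPrimes.minimalPrimes_annihilator_subset_associatedPrimes B B hmin
  obtain ⟨-, x, hx⟩ := isAssociatedPrime_iff.mp hass
  refine ⟨x, ?_, ?_⟩
  · rintro rfl
    apply hM.ne_top
    rw [hx, eq_top_iff]
    intro r _
    rw [Submodule.mem_colon_singleton]
    simp
  · intro r hr
    have h1 : r ∈ M := hJM hr
    rw [hx, Submodule.mem_colon_singleton, Submodule.mem_bot] at h1
    simpa [smul_eq_mul] using h1

/-- **Eigenvector mod `p`** (no torsion-freeness needed).  `L` a module over a commutative ring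
`R`, finitely generated as an abelian group; `ev : R → K` a ring hom to a field in which `p = 0`,
vanishing on the elements of `R` that kill `L`.  Then some `v ∈ L`, `v ∉ pL`, satisfies
`r • v ∈ pL` for all `r ∈ ker ev`. -/
theorem exists_eigen_mod_p' {R : Type*} [CommRing R] {L : Type*} [AddCommGroup L] [Module R L]
    [Module.Finite ℤ L]
    {K : Type*} [Field K] (p : ℕ) (hp : p ≠ 0) (hpK : (p : K) = 0) (ev : R →+* K)
    (H0 : ∀ r : R, (∀ x : L, r • x = 0) → ev r = 0) :
    ∃ v : L, (¬ ∃ u : L, v = (p : ℤ) • u) ∧ ∀ r : R, ev r = 0 → ∃ u : L, r • v = (p : ℤ) • u := by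
  classical
  set 𝔪 : Ideal R := RingHom.ker ev with h𝔪
  have hp𝔪 : (p : R) ∈ 𝔪 := by
    rw [h𝔪, RingHom.mem_ker, map_natCast]; exact hpK
  have hzsmul : ∀ u : L, (p : R) • u = (p : ℤ) • u := by
    intro u
    rw [Nat.cast_smul_eq_nsmul, natCast_zsmul]
  -- Nakayama: `𝔪 L ≠ L`
  have hfinR : Module.Finite R L := Module.Finite.of_restrictScalars_finite ℤ R L
  have hNak : 𝔪 • (⊤ : Submodule R L) ≠ ⊤ := by
    intro htop
    obtain ⟨r, hr1, hr0⟩ :=
      Submodule.exists_sub_one_mem_and_smul_eq_zero_of_fg_of_le_smul 𝔪 (⊤ : Submodule R L)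
        (Module.finite_def.mp hfinR) (by rw [htop])
    have h1 : ev r = 0 := H0 r (fun x => hr0 x Submodule.mem_top)
    have h2 : ev (r - 1) = 0 := hr1
    rw [map_sub, h1, map_one, zero_sub, neg_eq_zero] at h2
    exact one_ne_zero h2
  -- the submodule `P = pL`
  set P : Submodule R L := (p : R) • (⊤ : Submodule R L) with hP
  have hPmem : ∀ x : L, x ∈ P ↔ ∃ u : L, x = (p : ℤ) • u := by
    intro x
    rw [hP, Submodule.mem_smul_pointwise_iff_exists]
    constructor
    · rintro ⟨u, -, rfl⟩; exact ⟨u, hzsmul u⟩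
    · rintro ⟨u, rfl⟩; exact ⟨u, Submodule.mem_top, hzsmul u⟩
  have hP𝔪 : P ≤ 𝔪 • (⊤ : Submodule R L) := by
    intro x hx
    obtain ⟨u, hu⟩ := (hPmem x).mp hx
    rw [hu, ← hzsmul]
    exact Submodule.smul_mem_smul hp𝔪 Submodule.mem_top
  -- `V = L / pL` is finite
  have hVfin : Finite (L ⧸ P) := by
    have : Module.Finite ℤ (L ⧸ P) :=
      Module.Finite.of_surjective (P.mkQ.restrictScalars ℤ) P.mkQ_surjective
    apply Module.finite_of_fg_torsion
    intro x
    refine ⟨⟨(p : ℤ), mem_nonZeroDivisors_of_ne_zero (by exact_mod_cast hp)⟩, ?_⟩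
    obtain ⟨y, rfl⟩ := P.mkQ_surjective x
    show (p : ℤ) • P.mkQ y = 0
    rw [← map_zsmul, Submodule.mkQ_apply, Submodule.Quotient.mk_eq_zero, hPmem]
    exact ⟨y, rfl⟩
  -- the finite ring `B = R / Ann(V)`
  set φ : R →+* AddMonoid.End (L ⧸ P) := Module.toAddMonoidEnd R (L ⧸ P) with hφ
  have hφapp : ∀ (r : R) (x : L), φ r (P.mkQ x) = P.mkQ (r • x) := by
    intro r x
    show r • P.mkQ x = P.mkQ (r • x)
    rw [map_smul]
  have hφker : ∀ r : R, r ∈ RingHom.ker φ ↔ ∀ x : L, r • x ∈ P := by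
    intro r
    rw [RingHom.mem_ker]
    constructor
    · intro h x
      have h1 : φ r (P.mkQ x) = 0 := by rw [h]; rfl
      have h2 : φ r (P.mkQ x) = P.mkQ (r • x) := hφapp r x
      rw [h2, Submodule.mkQ_apply, Submodule.Quotient.mk_eq_zero] at h1
      exact h1
    · intro h
      ext y
      obtain ⟨x, rfl⟩ := P.mkQ_surjective y
      have h2 : φ r (P.mkQ x) = P.mkQ (r • x) := hφapp r x
      rw [h2, Submodule.mkQ_apply, (Submodule.Quotient.mk_eq_zero P).mpr (h x)]
      rfl
  have hEndfin : Finite (AddMonoid.End (L ⧸ P)) :=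
    Finite.of_injective (fun f : AddMonoid.End (L ⧸ P) => (f : L ⧸ P → L ⧸ P))
      DFunLike.coe_injective
  have hBfin : Finite (R ⧸ RingHom.ker φ) :=
    Finite.of_injective (RingHom.kerLift φ) (RingHom.kerLift_injective φ)
  have hBart : IsArtinianRing (R ⧸ RingHom.ker φ) := isArtinian_of_finite
  -- the image of `𝔪` in `B` is a proper ideal
  set 𝔫 : Ideal (R ⧸ RingHom.ker φ) := 𝔪.map (Ideal.Quotient.mk (RingHom.ker φ)) with h𝔫
  have h𝔫top : 𝔫 ≠ ⊤ := by
    intro htop
    have h1 : (1 : R ⧸ RingHom.ker φ) ∈ 𝔫 := by rw [htop]; exact Submodule.mem_top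
    rw [h𝔫, Ideal.mem_map_iff_of_surjective _ Ideal.Quotient.mk_surjective] at h1
    obtain ⟨t, ht, ht1⟩ := h1
    have h2 : (1 - t) ∈ RingHom.ker φ := by
      rw [← Ideal.Quotient.eq_zero_iff_mem, map_sub, map_one, ht1, sub_self]
    rw [hφker] at h2
    apply hNak
    rw [eq_top_iff]
    intro x _
    have h3 : x = t • x + (1 - t) • x := by rw [← add_smul]; simp
    rw [h3]
    exact Submodule.add_mem _ (Submodule.smul_mem_smul ht Submodule.mem_top) (hP𝔪 (h2 x))
  obtain ⟨b, hb0, hb⟩ := exists_ne_zero_forall_mul_eq_zero 𝔫 h𝔫top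
  obtain ⟨tb, rfl⟩ := Ideal.Quotient.mk_surjective b
  have htb : ¬ tb ∈ RingHom.ker φ := by
    intro h; exact hb0 (Ideal.Quotient.eq_zero_iff_mem.mpr h)
  rw [hφker] at htb
  push Not at htb
  obtain ⟨x, hx⟩ := htb
  refine ⟨tb • x, fun h => hx ((hPmem _).mpr h), ?_⟩
  intro r hr
  have hr𝔪 : r ∈ 𝔪 := hr
  have h1 : Ideal.Quotient.mk (RingHom.ker φ) r * Ideal.Quotient.mk (RingHom.ker φ) tb = 0 :=
    hb _ (Ideal.mem_map_of_mem _ hr𝔪)
  rw [← map_mul, Ideal.Quotient.eq_zero_iff_mem, hφker] at h1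
  have h2 := h1 x
  rw [mul_smul] at h2
  exact (hPmem _).mp h2

/-- **Eigenvector mod `p`**, literal interface of (P6) (helper40 #2814). -/
theorem exists_eigen_mod_p {R : Type*} [CommRing R] {L : Type*} [AddCommGroup L] [Module R L]
    [Module.Finite ℤ L] (htf : ∀ (n : ℤ) (x : L), n ≠ 0 → n • x = 0 → x = 0)
    {K : Type*} [Field K] (p : ℕ) (hp : p.Prime) (hpK : (p : K) = 0) (ev : R →+* K)
    (H0 : ∀ r : R, (∀ x : L, r • x = 0) → ev r = 0) :
    ∃ v : L, (¬ ∃ u : L, v = (p : ℤ) • u) ∧ ∀ r : R, ev r = 0 → ∃ u : L, r • v = (p : ℤ) • u :=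
  let _ := htf
  exists_eigen_mod_p' p hp.ne_zero hpK ev H0

end Fermat.Agent.S41.P6.SocleLemma
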