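/-
S41 volunteer leaf (P6), CONCRETE HALF, hedge copy `B` (helper84; the owner of (P6) is helper40,
whose file is `P6/InputTorsion.lean`; this file has a different path and namespace).

From the hypotheses of the frozen statement S41 (`f` a normalised eigenform of level `N`, `𝔪` a
maximal ideal of `ℤ̄` above `p`, the congruences `a_ℓ(f) ≡ a_ℓ(W) mod 𝔪` for the good primes and
`a_{q'}(f)² ≡ (q'+1)² mod 𝔪`) we produce an INTEGRAL PARABOLIC class `v₀ ∈ Par(N, ℤ)`, not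
divisible by `p`, which is a `T_ℓ`-eigenvector mod `p` with eigenvalue `a_ℓ(W)` for all these `ℓ`,
and with `T_{q'}² v₀ ≡ (q'+1)² v₀ mod p`.

Ingredients: the lattice `iota (Par(N, ℤ)) ⊆ S₂ × S₂` as a faithful module over the Hecke algebra
(`R1/LatticeModule`), the eigencharacter `θ_f` of `f` (helper77's `R4/Input`), and the socle lemma
(helper47's `P6/SocleLemma`).
-/
import Mathlib
import Fermat.Agent.S41.R1.LatticeModule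
import Fermat.Agent.S41.R4.Input
import Fermat.Agent.S41.P6.SocleLemma
import Fermat.Prelude.Def_FLTPrelim_ModularRep
import Fermat.Prelude.Def_FreyPackage_LevelRaising

set_option autoImplicit false

open CongruenceSubgroup
open scoped MatrixGroups

noncomputable section

namespace Fermat.Agent.S41.P6.InputTorsionB

open CuspForm ModularCurve ModularCurve.Period ModularFormClass
open Fermat.Agent.S16.HeckeHom
open Fermat.Agent.S41.R1.Comparison Fermat.Agent.S41.R1.LatticeModule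

variable {N : ℕ} [NeZero N]

/-- The abstract output of the socle lemma on the lattice, pulled back to `Par(N, ℤ)`. -/
theorem exists_class_mod_p {K : Type*} [Field K] (p : ℕ) (hp : p ≠ 0) (hpK : (p : K) = 0)
    (ev : heckeAlgebra N 2 (∅ : Set ℕ) →+* K) :
    ∃ x₀ : parabolicHoms ℤ (Gamma0 N) ℤ,
      (¬ ∃ u : parabolicHoms ℤ (Gamma0 N) ℤ, x₀ = (p : ℤ) • u) ∧
      ∀ r : heckeAlgebra N 2 (∅ : Set ℕ), ev r = 0 →
        ∃ u : parabolicHoms ℤ (Gamma0 N) ℤ,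
          r • iotaEquiv N ∅ x₀ = iotaEquiv N ∅ ((p : ℤ) • u) := by
  obtain ⟨v, hv, hr⟩ := Fermat.Agent.S41.P6.SocleLemma.exists_eigen_mod_p'
    (L := lattice N (∅ : Set ℕ)) p hp hpK ev
    (fun r hr => by rw [eq_zero_of_smul_lattice N ∅ r hr, map_zero])
  refine ⟨(iotaEquiv N ∅).symm v, ?_, ?_⟩
  · rintro ⟨u, hu⟩
    apply hv
    refine ⟨iotaEquiv N ∅ u, ?_⟩
    rw [← map_zsmul, ← hu, AddEquiv.apply_symm_apply]
  · intro r hr0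
    obtain ⟨u, hu⟩ := hr r hr0
    refine ⟨(iotaEquiv N ∅).symm u, ?_⟩
    rw [AddEquiv.apply_symm_apply, map_zsmul, AddEquiv.apply_symm_apply]
    exact hu

/-- `(T_ℓ - a) • iota x = iota (T_ℓ x - a x)`. -/
theorem T_sub_smul {ℓ : ℕ} [hℓ : Fact ℓ.Prime] (hℓN : ¬ ℓ ∣ N) (a : ℤ)
    (x : parabolicHoms ℤ (Gamma0 N) ℤ) :
    ((heckeAlgebra.T hℓ.out hℓN (Set.notMem_empty ℓ) : heckeAlgebra N 2 (∅ : Set ℕ)) -
        (a : heckeAlgebra N 2 (∅ : Set ℕ))) • iotaEquiv N ∅ x =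
      iotaEquiv N ∅ (heckeT N ℓ hℓN x - a • x) := by
  rw [sub_smul, T_smul_iota, Int.cast_smul_eq_zsmul, map_sub, map_zsmul]

/-- `(T_ℓ * T_ℓ - a) • iota x = iota (T_ℓ (T_ℓ x) - a x)`. -/
theorem T_sq_sub_smul {ℓ : ℕ} [hℓ : Fact ℓ.Prime] (hℓN : ¬ ℓ ∣ N) (a : ℤ)
    (x : parabolicHoms ℤ (Gamma0 N) ℤ) :
    ((heckeAlgebra.T hℓ.out hℓN (Set.notMem_empty ℓ) : heckeAlgebra N 2 (∅ : Set ℕ)) *
        (heckeAlgebra.T hℓ.out hℓN (Set.notMem_empty ℓ) : heckeAlgebra N 2 (∅ : Set ℕ)) -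
        (a : heckeAlgebra N 2 (∅ : Set ℕ))) • iotaEquiv N ∅ x =
      iotaEquiv N ∅ (heckeT N ℓ hℓN (heckeT N ℓ hℓN x) - a • x) := by
  rw [sub_smul, mul_smul, T_smul_iota, T_smul_iota, Int.cast_smul_eq_zsmul, map_sub, map_zsmul]

/-- **(P6), concrete half, on `Par(N, ℤ)`.** -/
theorem exists_par_input {W : WeierstrassCurve ℤ} {p q' : ℕ} (hp : p.Prime)
    (hq' : q'.Prime) (hq'N : ¬ q' ∣ N)
    (f : CuspForm (Gamma0 N) 2) (𝔪 : Ideal (integralClosure ℤ ℂ))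
    (hf : f.IsNormalizedEigenform) (hmax : 𝔪.IsMaximal) (hpm : (p : integralClosure ℤ ℂ) ∈ 𝔪)
    (hcong : ∀ ℓ : ℕ, ℓ.Prime → W.IsGoodPrimeFor ℓ → ¬ ℓ ∣ N → ℓ ≠ p →
      ∃ a : integralClosure ℤ ℂ, (a : ℂ) = ModularFormClass.qCoeff f ℓ ∧
        a - ((W.apOfModel ℓ : ℤ) : integralClosure ℤ ℂ) ∈ 𝔪)
    (hLR : ∃ a : integralClosure ℤ ℂ, (a : ℂ) = ModularFormClass.qCoeff f q' ∧
      a ^ 2 - ((q' : integralClosure ℤ ℂ) + 1) ^ 2 ∈ 𝔪) :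
    ∃ x₀ : parabolicHoms ℤ (Gamma0 N) ℤ,
      (¬ ∃ u : parabolicHoms ℤ (Gamma0 N) ℤ, x₀ = (p : ℤ) • u) ∧
      (∀ (ℓ : ℕ) (hℓ : ℓ.Prime) (hℓN : ¬ ℓ ∣ N), W.IsGoodPrimeFor ℓ → ℓ ≠ p →
        ∃ u : parabolicHoms ℤ (Gamma0 N) ℤ,
          @heckeT N _ ℓ ⟨hℓ⟩ hℓN x₀ - W.apOfModel ℓ • x₀ = (p : ℤ) • u) ∧
      (∃ u : parabolicHoms ℤ (Gamma0 N) ℤ,
        @heckeT N _ q' ⟨hq'⟩ hq'N (@heckeT N _ q' ⟨hq'⟩ hq'N x₀) - ((q' : ℤ) + 1) ^ 2 • x₀ =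
          (p : ℤ) • u) := by
  haveI := hmax
  obtain ⟨θ, nn₀, -, -, -, hθT, -⟩ := Fermat.Agent.S41.R4.Input.exists_maximal_of_eigenform hf 𝔪
  letI : Field (integralClosure ℤ ℂ ⧸ 𝔪) := Ideal.Quotient.field 𝔪
  let ev : heckeAlgebra N 2 (∅ : Set ℕ) →+* (integralClosure ℤ ℂ ⧸ 𝔪) :=
    (Ideal.Quotient.mk 𝔪).comp θ
  have hpK : ((p : ℕ) : integralClosure ℤ ℂ ⧸ 𝔪) = 0 := by
    have h1 : ((p : ℕ) : integralClosure ℤ ℂ ⧸ 𝔪) =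
        Ideal.Quotient.mk 𝔪 ((p : ℕ) : integralClosure ℤ ℂ) := (map_natCast _ p).symm
    rw [h1, Ideal.Quotient.eq_zero_iff_mem]
    exact hpm
  obtain ⟨x₀, hx₀, hr⟩ := exists_class_mod_p (N := N) p hp.ne_zero hpK ev
  refine ⟨x₀, hx₀, ?_, ?_⟩
  · intro ℓ hℓ hℓN hgood hℓp
    haveI : Fact ℓ.Prime := ⟨hℓ⟩
    obtain ⟨a, ha, ham⟩ := hcong ℓ hℓ hgood hℓN hℓp
    have hθa : θ (heckeAlgebra.T hℓ hℓN (Set.notMem_empty ℓ)) = a :=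
      Subtype.ext ((hθT ℓ hℓ hℓN).trans ha.symm)
    have hev : ev ((heckeAlgebra.T hℓ hℓN (Set.notMem_empty ℓ) : heckeAlgebra N 2 (∅ : Set ℕ)) -
        ((W.apOfModel ℓ : ℤ) : heckeAlgebra N 2 (∅ : Set ℕ))) = 0 := by
      show Ideal.Quotient.mk 𝔪 (θ _) = 0
      rw [map_sub, map_intCast, hθa, Ideal.Quotient.eq_zero_iff_mem]
      exact ham
    obtain ⟨u, hu⟩ := hr _ hev
    refine ⟨u, ?_⟩
    rw [T_sub_smul] at hu
    exact (iotaEquiv N ∅).injective hu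
  · haveI : Fact q'.Prime := ⟨hq'⟩
    obtain ⟨a, ha, ham⟩ := hLR
    have hθa : θ (heckeAlgebra.T hq' hq'N (Set.notMem_empty q')) = a :=
      Subtype.ext ((hθT q' hq' hq'N).trans ha.symm)
    have hev : ev ((heckeAlgebra.T hq' hq'N (Set.notMem_empty q') :
          heckeAlgebra N 2 (∅ : Set ℕ)) *
        (heckeAlgebra.T hq' hq'N (Set.notMem_empty q') : heckeAlgebra N 2 (∅ : Set ℕ)) -
        ((((q' : ℤ) + 1) ^ 2 : ℤ) : heckeAlgebra N 2 (∅ : Set ℕ))) = 0 := by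
      show Ideal.Quotient.mk 𝔪 (θ _) = 0
      rw [map_sub, map_mul, map_intCast, hθa, Ideal.Quotient.eq_zero_iff_mem]
      have : a * a - ((((q' : ℤ) + 1) ^ 2 : ℤ) : integralClosure ℤ ℂ) =
          a ^ 2 - ((q' : integralClosure ℤ ℂ) + 1) ^ 2 := by
        push_cast; ring
      rw [this]
      exact ham
    obtain ⟨u, hu⟩ := hr _ hev
    refine ⟨u, ?_⟩
    rw [T_sq_sub_smul] at hu
    exact (iotaEquiv N ∅).injective hu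

/-- **(P6), concrete half, literal shape of the architect's Decision 5 (#2868)**: everything in
terms of homomorphisms `Additive (Gamma0 N) →+ ℤ`, `IsParabolicHom`, and the S16 coset operators
`(cosetT N ℓ hℓN).heckeHom` (primality passed as `⟨hℓ⟩ : Fact ℓ.Prime`; this is `cT hℓ hℓN` of
helper77's `R4/Lattice` by `rfl`). -/
theorem exists_torsion_input {W : WeierstrassCurve ℤ} {p q' : ℕ} (hp : p.Prime)
    (hq' : q'.Prime) (hq'N : ¬ q' ∣ N)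
    (f : CuspForm (Gamma0 N) 2) (𝔪 : Ideal (integralClosure ℤ ℂ))
    (hf : f.IsNormalizedEigenform) (hmax : 𝔪.IsMaximal) (hpm : (p : integralClosure ℤ ℂ) ∈ 𝔪)
    (hcong : ∀ ℓ : ℕ, ℓ.Prime → W.IsGoodPrimeFor ℓ → ¬ ℓ ∣ N → ℓ ≠ p →
      ∃ a : integralClosure ℤ ℂ, (a : ℂ) = ModularFormClass.qCoeff f ℓ ∧
        a - ((W.apOfModel ℓ : ℤ) : integralClosure ℤ ℂ) ∈ 𝔪)
    (hLR : ∃ a : integralClosure ℤ ℂ, (a : ℂ) = ModularFormClass.qCoeff f q' ∧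
      a ^ 2 - ((q' : integralClosure ℤ ℂ) + 1) ^ 2 ∈ 𝔪) :
    ∃ v₀ : Additive (Gamma0 N) →+ ℤ, IsParabolicHom (Gamma0 N) v₀ ∧
      (¬ ∃ u : Additive (Gamma0 N) →+ ℤ, IsParabolicHom (Gamma0 N) u ∧ v₀ = (p : ℤ) • u) ∧
      (∀ (ℓ : ℕ) (hℓ : ℓ.Prime) (hℓN : ¬ ℓ ∣ N), W.IsGoodPrimeFor ℓ → ℓ ≠ p →
        ∃ u : Additive (Gamma0 N) →+ ℤ, IsParabolicHom (Gamma0 N) u ∧
          (@cosetT N ℓ ⟨hℓ⟩ hℓN).heckeHom v₀ - W.apOfModel ℓ • v₀ = (p : ℤ) • u) ∧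
      (∃ u : Additive (Gamma0 N) →+ ℤ, IsParabolicHom (Gamma0 N) u ∧
        (@cosetT N q' ⟨hq'⟩ hq'N).heckeHom ((@cosetT N q' ⟨hq'⟩ hq'N).heckeHom v₀) -
          ((q' : ℤ) + 1) ^ 2 • v₀ = (p : ℤ) • u) := by
  obtain ⟨x₀, hx₀, hT, hq⟩ := exists_par_input (W := W) hp hq' hq'N f 𝔪 hf hmax hpm hcong hLR
  refine ⟨x₀.1, x₀.2, ?_, ?_, ?_⟩
  · rintro ⟨u, hu, hxu⟩
    exact hx₀ ⟨⟨u, hu⟩, Subtype.ext hxu⟩
  · intro ℓ hℓ hℓN hgood hℓp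
    obtain ⟨u, hu⟩ := hT ℓ hℓ hℓN hgood hℓp
    exact ⟨u.1, u.2, congrArg Subtype.val hu⟩
  · obtain ⟨u, hu⟩ := hq
    exact ⟨u.1, u.2, congrArg Subtype.val hu⟩

end Fermat.Agent.S41.P6.InputTorsionB
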